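/-
S55 / block SYM (owned by EXIST) : the symbol `symb χ y = (·y)_* (β χ) ∈ H^2(Map(X, A))` attached to
`χ ∈ H^1(Map(X, ℤ/m))` and an invariant `y ∈ H^0(Map(X, A))`.  Generic: any group `G` with a level
system, any finite smooth `G`-set `X`, any `G`-module `A`.  Definitions only.
-/
import Fermat.Agent.S55.Coh.LESExact
import Fermat.Agent.S55.Coh.IndApi
import Fermat.Agent.S55.Coh.H0
import Fermat.Agent.S55.Coh.SetDefs
import Fermat.Agent.S55.Coh.Res
import Fermat.Agent.S55.Coh.IndProd

set_option autoImplicit false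

namespace Fermat.Agent.S55.Sym

/-! ### Trivial modules -/

/-- The abelian group `M` with the trivial action of every group. -/
def Triv (M : Type) : Type := M

namespace Triv

variable {M M' : Type}

instance [AddCommGroup M] : AddCommGroup (Triv M) := inferInstanceAs (AddCommGroup M)

/-- The identity `M ≃+ Triv M`. -/
def mk [AddCommGroup M] : M ≃+ Triv M := AddEquiv.refl M

/-- The underlying element. -/
def out [AddCommGroup M] : Triv M ≃+ M := AddEquiv.refl M

@[simp] theorem out_mk [AddCommGroup M] (x : M) : out (mk x) = x := rfl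
@[simp] theorem mk_out [AddCommGroup M] (x : Triv M) : mk (out x) = x := rfl

instance (G : Type) [Monoid G] [AddCommGroup M] : DistribMulAction G (Triv M) where
  smul _ x := x
  one_smul _ := rfl
  mul_smul _ _ _ := rfl
  smul_zero _ := rfl
  smul_add _ _ _ := rfl

@[simp] theorem smul_def {G : Type} [Monoid G] [AddCommGroup M] (g : G) (x : Triv M) :
    g • x = x := rfl

instance {G : Type} [Group G] (𝓝 : LevelSys G) [AddCommGroup M] : Smooth 𝓝 (Triv M) where
  exists_fix _ := by
    obtain ⟨N, hN⟩ := 𝓝.nonempty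
    exact ⟨N, hN, fun _ _ => rfl⟩

/-- An additive map is equivariant for the trivial actions. -/
def map (G : Type) [Monoid G] [AddCommGroup M] [AddCommGroup M'] (φ : M →+ M') :
    Triv M →+[G] Triv M' where
  toFun x := mk (φ (out x))
  map_smul' _ _ := rfl
  map_zero' := φ.map_zero
  map_add' := φ.map_add

@[simp] theorem map_apply {G : Type} [Monoid G] [AddCommGroup M] [AddCommGroup M'] (φ : M →+ M')
    (x : Triv M) : map G φ x = mk (φ (out x)) := rfl

end Triv

/-- `0 → ℤ → ℤ → ℤ/m → 0`. -/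
theorem shortExact_mul_cast (G : Type) [Group G] (m : ℕ) [NeZero m] :
    ShortExact (Triv.map G (AddMonoidHom.mulLeft (m : ℤ)))
      (Triv.map G (Int.castAddHom (ZMod m))) where
  inj := by
    intro a b h
    have h' : (m : ℤ) * Triv.out a = (m : ℤ) * Triv.out b := h
    exact Triv.out.injective (mul_left_cancel₀ (Int.natCast_ne_zero.2 (NeZero.ne m)) h')
  exact := by
    intro b
    constructor
    · intro h
      have h' : ((Triv.out b : ℤ) : ZMod m) = 0 := h
      obtain ⟨c, hc⟩ := (ZMod.intCast_zmod_eq_zero_iff_dvd _ _).1 h'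
      exact ⟨Triv.mk c, hc.symm⟩
    · rintro ⟨a, rfl⟩
      show (((m : ℤ) * Triv.out a : ℤ) : ZMod m) = 0
      simp
  surj := by
    intro c
    obtain ⟨z, hz⟩ := ZMod.intCast_surjective (Triv.out c)
    exact ⟨Triv.mk z, hz⟩

variable {G : Type} [Group G]

/-! ### The Bockstein map -/

/-- The Bockstein map `β : H^1(Map(X, ℤ/m)) → H^2(Map(X, ℤ))`. -/
noncomputable def bock (𝓝 : LevelSys G) (X : Type) [MulAction G X] [Finite X] [SmoothSet 𝓝 X]
    (m : ℕ) [NeZero m] :
    Hsm 𝓝 (IndMod X (Triv (ZMod m))) 1 →+ Hsm 𝓝 (IndMod X (Triv ℤ)) 2 :=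
  Hsm.delta (IndMod.shortExact_mapCoeff X (shortExact_mul_cast G m)) 1

/-! ### Multiplication by an invariant function -/

section mulBy

variable {X A : Type} [MulAction G X] [AddCommGroup A] [DistribMulAction G A]

/-- `f ↦ (x ↦ f x • y x)`, for an invariant `y`. -/
def mulBy (y : inv0 G (IndMod X A)) : IndMod X (Triv ℤ) →+[G] IndMod X A where
  toFun f := IndMod.of fun x => Triv.out (f x) • (y : IndMod X A) x
  map_smul' g f := by
    ext x
    have hy : g • (y : IndMod X A) = y := y.2 g
    have h1 : (y : IndMod X A) x = g • (y : IndMod X A) (g⁻¹ • x) := by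
      conv_lhs => rw [← hy]
      rfl
    show Triv.out (f (g⁻¹ • x)) • (y : IndMod X A) x =
      g • (Triv.out (f (g⁻¹ • x)) • (y : IndMod X A) (g⁻¹ • x))
    rw [h1, smul_comm]
  map_zero' := by
    ext x
    show Triv.out (0 : Triv ℤ) • (y : IndMod X A) x = 0
    simp
  map_add' f f' := by
    ext x
    show Triv.out (f x + f' x) • (y : IndMod X A) x =
      Triv.out (f x) • (y : IndMod X A) x + Triv.out (f' x) • (y : IndMod X A) x
    rw [map_add, add_smul]

@[simp] theorem mulBy_apply (y : inv0 G (IndMod X A)) (f : IndMod X (Triv ℤ)) (x : X) :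
    mulBy y f x = Triv.out (f x) • (y : IndMod X A) x := rfl

/-- The symbol `symb χ y = (·y)_* (β χ)`. -/
noncomputable def symb (𝓝 : LevelSys G) [Finite X] [SmoothSet 𝓝 X] {m : ℕ} [NeZero m]
    (χ : Hsm 𝓝 (IndMod X (Triv (ZMod m))) 1) (y : inv0 G (IndMod X A)) : Hsm 𝓝 (IndMod X A) 2 :=
  Hsm.map (mulBy y) 2 (bock 𝓝 X m χ)

/-- The constant function `1`, as an invariant of `Map(X, ℤ)`. -/
def oneInv (G X : Type) [Group G] [MulAction G X] : inv0 G (IndMod X (Triv ℤ)) :=
  ⟨IndMod.of fun _ => Triv.mk 1, fun _ => rfl⟩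

end mulBy

/-! ### The cocycle of a cyclic cover -/

/-- `c` is the `ℤ/m`-valued cocycle attached to the cover `u : X' → X`, its deck transformation `σ`
and some (set theoretic) section `s` of `u`: `g • s (g⁻¹ • x) = σ^(c g x) (s x)`. -/
def IsCoverCocycle {X' X : Type} [MulAction G X'] [MulAction G X] (u : X' →[G] X)
    (σ : X' →[G] X') (m : ℕ) (c : (Fin 1 → G) → IndMod X (Triv (ZMod m))) : Prop :=
  ∃ s : X → X', (∀ x, u (s x) = x) ∧
    ∀ (g : Fin 1 → G) (x : X), g 0 • s ((g 0)⁻¹ • x) = σ^[(Triv.out (c g x)).val] (s x)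

/-! ### The cocycle induced from a character of a subgroup -/

/-- The cocycle on `G` with values in `Map(G ⧸ U, M)` induced from a function `ψ` on `G` whose
restriction to `U` is a character: `(g, x) ↦ ψ (r(x)⁻¹ g r(g⁻¹ x))`, `r = Quotient.out`. -/
noncomputable def indCoc {M : Type} (U : Subgroup G) (ψ : G → M) :
    (Fin 1 → G) → IndMod (G ⧸ U) (Triv M) :=
  fun g => IndMod.of fun x => (ψ ((Quotient.out x)⁻¹ * g 0 * Quotient.out ((g 0)⁻¹ • x)) : M)

/-! ### Change of group -/

section change

variable {H : Type} [Group H] (f : H →* G) (X : Type) [MulAction G X]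

/-- `Map(X, A) → Map(Res X, Res A)` as an additive map. -/
def toLoc (A : Type) [AddCommGroup A] [DistribMulAction G A] :
    IndMod X A →+ IndMod (ResSet f X) (ResMod f A) where
  toFun F := IndMod.of fun x => ResMod.toRes f (F x.val)
  map_zero' := rfl
  map_add' _ _ := rfl

theorem toLoc_smul (A : Type) [AddCommGroup A] [DistribMulAction G A] (h : H) (F : IndMod X A) :
    toLoc f X A (f h • F) = h • toLoc f X A F := by
  ext x
  show ResMod.toRes f (f h • F ((f h)⁻¹ • x.val)) = h • ResMod.toRes f (F (h⁻¹ • x).val)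
  rw [ResMod.smul_def, ResSet.val_smul, map_inv]

/-- `Map(X, M) → Map(Res X, M)` for a trivial module `M`. -/
def toLocTriv (M : Type) [AddCommGroup M] :
    IndMod X (Triv M) →+ IndMod (ResSet f X) (Triv M) where
  toFun F := IndMod.of fun x => F x.val
  map_zero' := rfl
  map_add' _ _ := rfl

theorem toLocTriv_smul (M : Type) [AddCommGroup M] (h : H) (F : IndMod X (Triv M)) :
    toLocTriv f X M (f h • F) = h • toLocTriv f X M F := by
  ext x
  show F ((f h)⁻¹ • x.val) = F (h⁻¹ • x).val
  rw [ResSet.val_smul, map_inv]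

/-- The map induced by `toLoc` on invariants. -/
def toLocInv (A : Type) [AddCommGroup A] [DistribMulAction G A] :
    inv0 G (IndMod X A) →+ inv0 H (IndMod (ResSet f X) (ResMod f A)) where
  toFun y := ⟨toLoc f X A y, fun h => by rw [← toLoc_smul, y.2 (f h)]⟩
  map_zero' := rfl
  map_add' _ _ := rfl

@[simp] theorem coe_toLocInv (A : Type) [AddCommGroup A] [DistribMulAction G A]
    (y : inv0 G (IndMod X A)) : (toLocInv f X A y : IndMod (ResSet f X) (ResMod f A)) =
      toLoc f X A y := rfl

variable {f} in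
/-- Localisation `H^n(G, Map(X, A)) → H^n(H, Map(Res X, Res A))`. -/
def locH {𝓝H : LevelSys H} {𝓝G : LevelSys G} (hf : (𝓝G.comap f).Le 𝓝H) (A : Type)
    [AddCommGroup A] [DistribMulAction G A] (n : ℕ) :
    Hsm 𝓝G (IndMod X A) n →+ Hsm 𝓝H (IndMod (ResSet f X) (ResMod f A)) n :=
  Hsm.pmap f hf (toLoc f X A) (toLoc_smul f X A) n

variable {f} in
/-- Localisation for trivial coefficients. -/
def locHTriv {𝓝H : LevelSys H} {𝓝G : LevelSys G} (hf : (𝓝G.comap f).Le 𝓝H) (M : Type)
    [AddCommGroup M] (n : ℕ) :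
    Hsm 𝓝G (IndMod X (Triv M)) n →+ Hsm 𝓝H (IndMod (ResSet f X) (Triv M)) n :=
  Hsm.pmap f hf (toLocTriv f X M) (toLocTriv_smul f X M) n

end change

/-- An equivariant map, regarded as a map of restricted sets. -/
def resMap {H : Type} [Group H] (f : H →* G) {X₁ X : Type} [MulAction G X₁] [MulAction G X]
    (v : X₁ →[G] X) : ResSet f X₁ →[H] ResSet f X where
  toFun x := ResSet.of (v x.val)
  map_smul' h x := by
    apply ResSet.ext
    simp

@[simp] theorem resMap_val {H : Type} [Group H] (f : H →* G) {X₁ X : Type} [MulAction G X₁]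
    [MulAction G X] (v : X₁ →[G] X) (x : ResSet f X₁) : (resMap f v x).val = v x.val := rfl

/-! ### The part of a cover over an orbit -/

section orbit

variable {Y' Y : Type} [MulAction G Y'] [MulAction G Y]

/-- The preimage of the orbit `ω` under `u : Y' → Y`. -/
def PreOrb (u : Y' →[G] Y) (ω : MulAction.orbitRel.Quotient G Y) : Type :=
  {y : Y' // u y ∈ ω.orbit}

namespace PreOrb

variable (u : Y' →[G] Y) (ω : MulAction.orbitRel.Quotient G Y)

theorem smul_mem_orbit (g : G) {y : Y} (hy : y ∈ ω.orbit) : g • y ∈ ω.orbit := by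
  rw [MulAction.orbitRel.Quotient.mem_orbit] at hy ⊢
  rw [← hy]
  exact Quotient.sound' (MulAction.mem_orbit y g)

instance : MulAction G (PreOrb u ω) where
  smul g y := ⟨g • y.1, by rw [map_smul]; exact smul_mem_orbit ω g y.2⟩
  one_smul y := Subtype.ext (one_smul G y.1)
  mul_smul g h y := Subtype.ext (mul_smul g h y.1)

instance [Finite Y'] : Finite (PreOrb u ω) := Subtype.finite

/-- The inclusion into `Y'`. -/
def incl : PreOrb u ω →[G] Y' where
  toFun := Subtype.val
  map_smul' _ _ := rfl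

/-- The restriction of `u`. -/
def proj : PreOrb u ω →[G] ω.orbit where
  toFun y := ⟨u y.1, y.2⟩
  map_smul' g y := Subtype.ext (map_smul u g y.1)

/-- The restriction of a deck transformation. -/
def deck (σ : Y' →[G] Y') (hσ : ∀ y, u (σ y) = u y) : PreOrb u ω →[G] PreOrb u ω where
  toFun y := ⟨σ y.1, by rw [hσ]; exact y.2⟩
  map_smul' g y := Subtype.ext (map_smul σ g y.1)

end PreOrb

end orbit

end Fermat.Agent.S55.Sym
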