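/-
S55 / block SYM, section SYM-7 : cocycles induced from characters of a subgroup.
-/
import Fermat.Agent.S55.Sym.Defs
import Fermat.Agent.S55.Coh.Coset
import Fermat.Agent.S55.Coh.Complex

set_option autoImplicit false

namespace Fermat.Agent.S55.Sym

open Fermat.Agent.S55 Fermat.Agent.S55.Sym

variable {G : Type} [Group G] {𝓝 : LevelSys G}

/-! ## SYM-7 : file `Sym/IndCoc.lean` (cocycles induced from characters of a subgroup) -/

section S7

variable {M : Type} [AddCommGroup M]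

/-- `n(g, x) = r(x)⁻¹ g r(g⁻¹ x)`. -/
private noncomputable def indN (U : Subgroup G) (g : G) (x : G ⧸ U) : G :=
  (Quotient.out x)⁻¹ * g * Quotient.out (g⁻¹ • x)

private theorem indCoc_apply (U : Subgroup G) (ψ : G → M) (g : Fin 1 → G) (x : G ⧸ U) :
    indCoc U ψ g x = Triv.mk (ψ (indN U (g 0) x)) := rfl

private theorem dd_one_apply {A : Type} [AddCommGroup A] [DistribMulAction G A]
    (f : (Fin 1 → G) → A) (g : Fin 2 → G) :
    dd A 1 f g = g 0 • f (fun _ => g 1) - f (fun _ => g 0 * g 1) + f (fun _ => g 0) := by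
  have e0 : Fin.contractNth (0 : Fin 2) (· * ·) g = fun _ => g 0 * g 1 := by
    funext i; fin_cases i; rfl
  have e1 : Fin.contractNth (1 : Fin 2) (· * ·) g = fun _ => g 0 := by
    funext i; fin_cases i; rfl
  have e2 : (fun i : Fin 1 => g i.succ) = fun _ => g 1 := by
    funext i; fin_cases i; rfl
  rw [dd_apply, e2]
  show _ + ∑ j : Fin 2, _ = _
  rw [Fin.sum_univ_two, e0, e1]
  simp [sub_eq_add_neg, add_assoc]

private theorem indN_mem (U : Subgroup G) (g : G) (x : G ⧸ U) : indN U g x ∈ U := by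
  have h1 : ((g * Quotient.out (g⁻¹ • x) : G) : G ⧸ U) = x := by
    have : ((g * Quotient.out (g⁻¹ • x) : G) : G ⧸ U) =
        g • ((Quotient.out (g⁻¹ • x) : G) : G ⧸ U) := rfl
    rw [this, QuotientGroup.out_eq', smul_inv_smul]
  have h2 : ((Quotient.out x : G) : G ⧸ U) = ((g * Quotient.out (g⁻¹ • x) : G) : G ⧸ U) := by
    rw [h1, QuotientGroup.out_eq']
  rw [QuotientGroup.eq] at h2
  unfold indN
  rw [mul_assoc]
  exact h2

private theorem indN_mul (U : Subgroup G) (g₀ g₁ : G) (x : G ⧸ U) :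
    indN U (g₀ * g₁) x = indN U g₀ x * indN U g₁ (g₀⁻¹ • x) := by
  unfold indN
  rw [mul_inv_rev, mul_smul]
  group

/-- a normal subgroup contained in `U` acts trivially on `G ⧸ U` -/
private theorem smul_eq_of_normal {U N : Subgroup G} (hN : N.Normal) (hNU : N ≤ U) {n : G}
    (hn : n ∈ N) (x : G ⧸ U) : n • x = x := by
  induction x using QuotientGroup.induction_on with
  | H a =>
    show ((n * a : G) : G ⧸ U) = (a : G ⧸ U)
    rw [QuotientGroup.eq]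
    have h1 : (n * a)⁻¹ * a = a⁻¹ * n⁻¹ * a⁻¹⁻¹ := by group
    rw [h1]
    exact hNU (hN.conj_mem _ (N.inv_mem hn) _)

theorem indCoc_add (U : Subgroup G) (ψ ψ' : G → M) :
    indCoc U (fun g => ψ g + ψ' g) = indCoc U ψ + indCoc U ψ' := by
  funext g
  ext x
  rfl

theorem indCoc_zero (U : Subgroup G) : indCoc U (fun _ => (0 : M)) = 0 := by
  funext g
  ext x
  rfl

/-- only the restriction of `ψ` to `U` matters -/
theorem indCoc_congr (U : Subgroup G) {ψ ψ' : G → M} (h : ∀ a ∈ U, ψ a = ψ' a) :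
    indCoc U ψ = indCoc U ψ' := by
  funext g
  ext x
  exact h _ (indN_mem U (g 0) x)

theorem indCoc_mem_Zsm (U : Subgroup G) (ψ : G → M)
    (hψ : ∀ a ∈ U, ∀ b ∈ U, ψ (a * b) = ψ a + ψ b) {N : Subgroup G} (hN : N ∈ 𝓝.carrier)
    (hNU : N ≤ U) (hNψ : ∀ n ∈ N, ψ n = 0) :
    indCoc U ψ ∈ Zsm 𝓝 (IndMod (G ⧸ U) (Triv M)) 1 := by
  have hnorm : N.Normal := 𝓝.normal N hN
  rw [mem_Zsm]
  constructor
  · refine ⟨N, hN, fun g k hgk => ?_⟩
    ext x
    rw [indCoc_apply, indCoc_apply]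
    have hn := hgk 0
    set n' := (g 0)⁻¹ * k 0 with hn'
    have hk : k 0 = g 0 * n' := by rw [hn', mul_inv_cancel_left]
    have hy : (k 0)⁻¹ • x = (g 0)⁻¹ • x := by
      rw [hk, mul_inv_rev, mul_smul]
      exact smul_eq_of_normal hnorm hNU (N.inv_mem hn) _
    have h1 : indN U (k 0) x = indN U (g 0) x *
        ((Quotient.out ((g 0)⁻¹ • x))⁻¹ * n' * (Quotient.out ((g 0)⁻¹ • x))⁻¹⁻¹) := by
      unfold indN
      rw [hy, hk]
      group
    have h2 : (Quotient.out ((g 0)⁻¹ • x))⁻¹ * n' * (Quotient.out ((g 0)⁻¹ • x))⁻¹⁻¹ ∈ N :=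
      hnorm.conj_mem _ hn _
    rw [h1, hψ _ (indN_mem U _ _) _ (hNU h2), hNψ _ h2, add_zero]
  · funext g
    ext x
    rw [dd_one_apply]
    simp only [IndMod.add_apply, IndMod.sub_apply, IndMod.smul_apply, indCoc_apply, Triv.smul_def,
      Pi.zero_apply, IndMod.zero_apply]
    rw [indN_mul, hψ _ (indN_mem U _ _) _ (indN_mem U _ _), map_add]
    abel

/-! ### characters -/

private theorem char_one {U : Subgroup G} {ψ : G → M}
    (hψ : ∀ a ∈ U, ∀ b ∈ U, ψ (a * b) = ψ a + ψ b) : ψ 1 = 0 := by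
  have h := hψ 1 U.one_mem 1 U.one_mem
  rw [mul_one] at h
  exact (add_eq_left.1 h.symm)

private theorem char_inv {U : Subgroup G} {ψ : G → M}
    (hψ : ∀ a ∈ U, ∀ b ∈ U, ψ (a * b) = ψ a + ψ b) {a : G} (ha : a ∈ U) : ψ a⁻¹ = -ψ a := by
  have h := hψ a⁻¹ (U.inv_mem ha) a ha
  rw [inv_mul_cancel, char_one hψ] at h
  exact eq_neg_of_add_eq_zero_left h.symm

private theorem char_pow {U : Subgroup G} {m : ℕ} {ψ : G → ZMod m}
    (hψ : ∀ a ∈ U, ∀ b ∈ U, ψ (a * b) = ψ a + ψ b) {s₀ : G} (hs₀ : s₀ ∈ U) (h1 : ψ s₀ = 1)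
    (k : ℕ) : ψ (s₀ ^ k) = k := by
  induction k with
  | zero => rw [pow_zero, char_one hψ, Nat.cast_zero]
  | succ k ih => rw [pow_succ, hψ _ (U.pow_mem hs₀ k) _ hs₀, ih, h1, Nat.cast_succ]

/-- `(s₀ ^ k)⁻¹ * n ∈ U'` iff `ψ n = k`. -/
private theorem char_mem_iff {U' U : Subgroup G} {m : ℕ} {ψ : G → ZMod m}
    (hψ : ∀ a ∈ U, ∀ b ∈ U, ψ (a * b) = ψ a + ψ b) (hker : ∀ a ∈ U, ψ a = 0 ↔ a ∈ U')
    {s₀ : G} (hs₀ : s₀ ∈ U) (h1 : ψ s₀ = 1) (k : ℕ) {n : G} (hn : n ∈ U) :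
    (s₀ ^ k)⁻¹ * n ∈ U' ↔ ψ n = k := by
  have hk : s₀ ^ k ∈ U := U.pow_mem hs₀ k
  rw [← hker _ (U.mul_mem (U.inv_mem hk) hn), hψ _ (U.inv_mem hk) _ hn, char_inv hψ hk,
    char_pow hψ hs₀ h1, neg_add_eq_zero, eq_comm]

theorem isCoverCocycle_indCoc {U' U : Subgroup G} (h : U' ≤ U) (s₀ : G) (hs₀ : s₀ ∈ U)
    (hs : ∀ v ∈ U', s₀⁻¹ * v * s₀ ∈ U') (m : ℕ) [NeZero m] (ψ : G → ZMod m)
    (hψ : ∀ a ∈ U, ∀ b ∈ U, ψ (a * b) = ψ a + ψ b) (hker : ∀ a ∈ U, ψ a = 0 ↔ a ∈ U')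
    (h1 : ψ s₀ = 1) :
    IsCoverCocycle (cosetMap h) (cosetRight U' s₀ hs) m (indCoc U ψ) := by
  refine ⟨fun x => ((Quotient.out x : G) : G ⧸ U'), fun x => ?_, fun g x => ?_⟩
  · rw [cosetMap_mk, QuotientGroup.out_eq']
  · rw [cosetRight_iterate, indCoc_apply, Triv.out_mk]
    show ((g 0 * Quotient.out ((g 0)⁻¹ • x) : G) : G ⧸ U') = _
    rw [eq_comm, QuotientGroup.eq]
    have e : (Quotient.out x * s₀ ^ (ψ (indN U (g 0) x)).val)⁻¹ *
        (g 0 * Quotient.out ((g 0)⁻¹ • x)) = (s₀ ^ (ψ (indN U (g 0) x)).val)⁻¹ * indN U (g 0) x := by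
      unfold indN
      group
    rw [e, char_mem_iff hψ hker hs₀ h1 _ (indN_mem U _ _), ZMod.natCast_zmod_val]

/-- under the same hypotheses the coset map is a cyclic cover of degree `m` -/
theorem cyclicCover_of_char {U' U : Subgroup G} (h : U' ≤ U) (s₀ : G) (hs₀ : s₀ ∈ U)
    (hs : ∀ v ∈ U', s₀⁻¹ * v * s₀ ∈ U') (m : ℕ) [NeZero m] (ψ : G → ZMod m)
    (hψ : ∀ a ∈ U, ∀ b ∈ U, ψ (a * b) = ψ a + ψ b) (hker : ∀ a ∈ U, ψ a = 0 ↔ a ∈ U')
    (h1 : ψ s₀ = 1) : CyclicCover (cosetMap h) (cosetRight U' s₀ hs) m := by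
  refine ⟨Nat.pos_of_ne_zero (NeZero.ne m), cosetMap_surjective h,
    cosetMap_cosetRight h s₀ hs₀ hs, ?_, ?_, ?_⟩
  · intro x
    induction x using QuotientGroup.induction_on with
    | H a =>
      rw [cosetRight_iterate, QuotientGroup.eq]
      have e : (a * s₀ ^ m)⁻¹ * a = (s₀ ^ m)⁻¹ * 1 := by group
      rw [e, char_mem_iff hψ hker hs₀ h1 _ U.one_mem, char_one hψ, ZMod.natCast_self]
  · intro x y
    induction x using QuotientGroup.induction_on with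
    | H a =>
      induction y using QuotientGroup.induction_on with
      | H b =>
        intro hab
        rw [cosetMap_mk, cosetMap_mk, QuotientGroup.eq] at hab
        refine ⟨(ψ (a⁻¹ * b)).val, ZMod.val_lt _, ?_⟩
        rw [cosetRight_iterate, QuotientGroup.eq]
        have e : (a * s₀ ^ (ψ (a⁻¹ * b)).val)⁻¹ * b = (s₀ ^ (ψ (a⁻¹ * b)).val)⁻¹ * (a⁻¹ * b) := by
          group
        rw [e, char_mem_iff hψ hker hs₀ h1 _ hab, ZMod.natCast_zmod_val]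
  · intro x k hk0 hkm
    induction x using QuotientGroup.induction_on with
    | H a =>
      rw [cosetRight_iterate, Ne, QuotientGroup.eq]
      have e : (a * s₀ ^ k)⁻¹ * a = (s₀ ^ k)⁻¹ * 1 := by group
      rw [e, char_mem_iff hψ hker hs₀ h1 _ U.one_mem, char_one hψ, eq_comm,
        ZMod.natCast_eq_zero_iff]
      exact Nat.not_dvd_of_pos_of_lt hk0 hkm

end S7

end Fermat.Agent.S55.Sym
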