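/-
S55 / block SYM, section SYM-1: bi-additivity of `symb`, `m`-torsion.   Proofs: helper61.
-/
import Fermat.Agent.S55.Sym.Defs

set_option autoImplicit false
set_option linter.unusedSectionVars false

namespace Fermat.Agent.S55.Sym

open Fermat.Agent.S55 Fermat.Agent.S55.Sym

variable {G : Type} [Group G] {𝓝 : LevelSys G}

section S1

variable {X A : Type} [MulAction G X] [Finite X] [SmoothSet 𝓝 X] [AddCommGroup A]
  [DistribMulAction G A] {m : ℕ} [NeZero m]

theorem symb_add_left (χ χ' : Hsm 𝓝 (IndMod X (Triv (ZMod m))) 1) (y : inv0 G (IndMod X A)) :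
    symb 𝓝 (χ + χ') y = symb 𝓝 χ y + symb 𝓝 χ' y := by
  unfold symb
  rw [map_add, map_add]

theorem symb_zero_left (y : inv0 G (IndMod X A)) :
    symb 𝓝 (0 : Hsm 𝓝 (IndMod X (Triv (ZMod m))) 1) y = 0 := by
  unfold symb
  rw [map_zero, map_zero]

theorem symb_add_right (χ : Hsm 𝓝 (IndMod X (Triv (ZMod m))) 1) (y y' : inv0 G (IndMod X A)) :
    symb 𝓝 χ (y + y') = symb 𝓝 χ y + symb 𝓝 χ y' := by
  unfold symb
  refine Hsm.map_add' (fun f => ?_) 2 _
  ext x
  show Triv.out (f x) • ((y : IndMod X A) x + (y' : IndMod X A) x) =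
    Triv.out (f x) • (y : IndMod X A) x + Triv.out (f x) • (y' : IndMod X A) x
  rw [smul_add]

theorem symb_zero_right (χ : Hsm 𝓝 (IndMod X (Triv (ZMod m))) 1) :
    symb 𝓝 χ (0 : inv0 G (IndMod X A)) = 0 := by
  unfold symb
  refine Hsm.map_zero' (fun f => ?_) 2 _
  ext x
  show Triv.out (f x) • (0 : A) = 0
  rw [smul_zero]

theorem symb_nsmul_right (χ : Hsm 𝓝 (IndMod X (Triv (ZMod m))) 1) (k : ℕ)
    (y : inv0 G (IndMod X A)) : symb 𝓝 χ (k • y) = k • symb 𝓝 χ y := by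
  induction k with
  | zero => rw [zero_smul, zero_smul, symb_zero_right]
  | succ k ih => rw [succ_nsmul, succ_nsmul, symb_add_right, ih]

theorem nsmul_H1_eq_zero (χ : Hsm 𝓝 (IndMod X (Triv (ZMod m))) 1) : m • χ = 0 := by
  have h0 : ∀ a : IndMod X (Triv (ZMod m)), m • a = 0 := by
    intro a
    ext x
    show m • (a x) = 0
    have h1 : m • Triv.out (a x) = 0 := by
      rw [nsmul_eq_mul, CharP.cast_eq_zero, zero_mul]
    exact h1
  have h2 := Hsm.map_nsmul' (𝓝 := 𝓝)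
    (χ := (0 : IndMod X (Triv (ZMod m)) →+[G] IndMod X (Triv (ZMod m)))) m
    (fun a => (h0 a).symm) 1 χ
  rw [← h2]
  exact Hsm.map_zero' (fun _ => rfl) 1 χ

theorem nsmul_symb (χ : Hsm 𝓝 (IndMod X (Triv (ZMod m))) 1) (y : inv0 G (IndMod X A)) :
    m • symb 𝓝 χ y = 0 := by
  unfold symb
  rw [← map_nsmul, ← map_nsmul, nsmul_H1_eq_zero, map_zero, map_zero]

theorem mulBy_oneInv (y : inv0 G (IndMod X A)) :
    mulBy y (oneInv G X : IndMod X (Triv ℤ)) = (y : IndMod X A) := by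
  ext x
  show (1 : ℤ) • (y : IndMod X A) x = (y : IndMod X A) x
  rw [one_smul]

end S1

end Fermat.Agent.S55.Sym
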