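/-
S55 / block SYM, task SYM-3 : the symbol commutes with change of group (`Hsm.pmap`).
-/
import Fermat.Agent.S55.Sym.Defs
import Fermat.Agent.S55.Coh.ResDelta
import Fermat.Agent.S55.Coh.ResApi

set_option autoImplicit false
set_option linter.unusedSectionVars false

namespace Fermat.Agent.S55.Sym

open Fermat.Agent.S55

variable {G : Type} [Group G] {𝓝 : LevelSys G}

variable {H : Type} [Group H] {f : H →* G} {𝓝H : LevelSys H}
variable {X X₁ A : Type} [MulAction G X] [Finite X] [SmoothSet 𝓝 X] [SmoothSet 𝓝H (ResSet f X)]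
  [MulAction G X₁] [AddCommGroup A] [DistribMulAction G A] {m : ℕ} [NeZero m]

theorem smoothSet_resSet_of_le (hf : (𝓝.comap f).Le 𝓝H) (Z : Type) [MulAction G Z]
    [SmoothSet 𝓝 Z] : SmoothSet 𝓝H (ResSet f Z) where
  exists_fix x := by
    obtain ⟨N, hN, h⟩ := SmoothSet.exists_fix (𝓝 := 𝓝) x.val
    obtain ⟨N', hN', hle⟩ := hf _ ⟨N, hN, rfl⟩
    exact ⟨N', hN', fun n hn => ResSet.ext (h (f n) (hle hn))⟩

theorem locH_bock (hf : (𝓝.comap f).Le 𝓝H) (χ : Hsm 𝓝 (IndMod X (Triv (ZMod m))) 1) :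
    bock 𝓝H (ResSet f X) m (locHTriv X hf (ZMod m) 1 χ) =
      locHTriv X hf ℤ 2 (bock 𝓝 X m χ) :=
  Hsm.delta_pmap f hf (IndMod.shortExact_mapCoeff X (shortExact_mul_cast G m))
    (IndMod.shortExact_mapCoeff (ResSet f X) (shortExact_mul_cast H m))
    (toLocTriv f X ℤ) (toLocTriv f X ℤ) (toLocTriv f X (ZMod m))
    (toLocTriv_smul f X ℤ) (toLocTriv_smul f X ℤ) (toLocTriv_smul f X (ZMod m))
    (fun _ => rfl) (fun _ => rfl) 1 χ

theorem locH_symb (hf : (𝓝.comap f).Le 𝓝H) (χ : Hsm 𝓝 (IndMod X (Triv (ZMod m))) 1)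
    (y : inv0 G (IndMod X A)) :
    locH X hf A 2 (symb 𝓝 χ y) =
      symb 𝓝H (locHTriv X hf (ZMod m) 1 χ) (toLocInv f X A y) := by
  unfold symb
  rw [locH_bock]
  unfold locH locHTriv
  rw [Hsm.pmap_map, Hsm.map_pmap]
  refine congrFun (congrArg DFunLike.coe (Hsm.pmap_congr f hf _ _ (fun F => ?_) 2)) _
  ext x
  show ResMod.toRes f (Triv.out (F x.val) • (y : IndMod X A) x.val) =
    Triv.out (F x.val) • ResMod.toRes f ((y : IndMod X A) x.val)
  rw [map_zsmul]

theorem locHTriv_pull (hf : (𝓝.comap f).Le 𝓝H) (M : Type) [AddCommGroup M] (v : X₁ →[G] X) (n : ℕ)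
    (χ : Hsm 𝓝 (IndMod X (Triv M)) n) :
    locHTriv X₁ hf M n (Hsm.map (IndMod.pull (Triv M) v) n χ) =
      Hsm.map (IndMod.pull (Triv M) (resMap f v)) n (locHTriv X hf M n χ) := by
  unfold locHTriv
  rw [Hsm.pmap_map, Hsm.map_pmap]
  exact congrFun (congrArg DFunLike.coe (Hsm.pmap_congr f hf _ _ (fun F => rfl) n)) _

/-- `locH` is `res` followed by the identification `Res Map(X, A) = Map(Res X, Res A)`. -/
theorem locH_eq_map_res (hf : (𝓝.comap f).Le 𝓝H) (n : ℕ) (x : Hsm 𝓝 (IndMod X A) n) :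
    locH X hf A n x = Hsm.map (IndMod.toResSet f X A) n (Hsm.res (IndMod X A) f 𝓝H 𝓝 hf n x) := by
  induction x using Hsm.induction_on with
  | h z => rfl

omit [SmoothSet 𝓝 X] [SmoothSet 𝓝H (ResSet f X)] in
private theorem sum_toLoc (F : IndMod X A) :
    IndMod.sum (G := H) (ResSet f X) (ResMod f A) (toLoc f X A F) =
      ResMod.toRes f (IndMod.sum (G := G) X A F) := by
  rw [IndMod.sum_def, IndMod.sum_def]
  have h1 : (∑ᶠ x : ResSet f X, (toLoc f X A F) x) =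
      ∑ᶠ x : X, (toLoc f X A F) (ResSet.equiv f x) :=
    (finsum_comp_equiv (ResSet.equiv f) (f := fun x => (toLoc f X A F) x)).symm
  rw [h1]
  exact ((ResMod.toRes f : A ≃+ ResMod f A).toAddMonoidHom.map_finsum
    (Set.toFinite _)).symm

/-- the sum over `X` commutes with localisation -/
theorem map_sum_locH (hf : (𝓝.comap f).Le 𝓝H) (n : ℕ) (x : Hsm 𝓝 (IndMod X A) n) :
    Hsm.map (IndMod.sum (ResSet f X) (ResMod f A)) n (locH X hf A n x) =
      Hsm.map (ResMod.map f (IndMod.sum X A)) n (Hsm.res (IndMod X A) f 𝓝H 𝓝 hf n x) := by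
  induction x using Hsm.induction_on with
  | h z =>
    refine congrArg (Hsm.mk 𝓝H (ResMod f A) n) (Subtype.ext (funext fun g => ?_))
    exact sum_toLoc _

end Fermat.Agent.S55.Sym
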