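/-
S55 / block SYM-5 : `θ_σ(1) = - β[c]` : the double connecting homomorphism of a cyclic cover,
evaluated at the constant function `1`, is minus the Bockstein of the class of the cover.
-/
import Fermat.Agent.S55.Sym.Defs
import Fermat.Agent.S55.Coh.Theta

set_option autoImplicit false

namespace Fermat.Agent.S55.Sym

open Fermat.Agent.S55

variable {G : Type} [Group G] {𝓝 : LevelSys G}

/-! ### Torsion-freeness of `Map(Y, ℤ)` -/

private theorem thetaOne_triv_cancel {m : ℕ} (hm : m ≠ 0) {a b : Triv ℤ} (h : m • a = m • b) :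
    a = b := by
  have h' : m • Triv.out a = m • Triv.out b := by rw [← map_nsmul, ← map_nsmul, h]
  apply Triv.out.injective
  simpa [hm] using h'

private theorem thetaOne_ind_cancel {Y : Type} {m : ℕ} (hm : m ≠ 0) {f f' : IndMod Y (Triv ℤ)}
    (h : m • f = m • f') : f = f' := by
  ext y
  exact thetaOne_triv_cancel hm (DFunLike.congr_fun h y)

omit [Group G] in
private theorem thetaOne_coch_cancel {Y : Type} {m n : ℕ} (hm : m ≠ 0)
    {f f' : (Fin n → G) → IndMod Y (Triv ℤ)} (h : m • f = m • f') : f = f' := by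
  funext g
  exact thetaOne_ind_cancel hm (congrFun h g)

section

variable {X' X : Type} [MulAction G X'] [MulAction G X] {u : X' →[G] X} {σ : X' →[G] X'} {m : ℕ}
  [NeZero m] [Finite X'] [SmoothSet 𝓝 X'] [Finite X] [SmoothSet 𝓝 X]

/-- The homological algebra part of the computation. -/
private theorem thetaOne_aux (h : CyclicCover u σ m)
    {c : (Fin 1 → G) → IndMod X (Triv (ZMod m))}
    (hz : c ∈ Zsm 𝓝 (IndMod X (Triv (ZMod m))) 1)
    (J b : IndMod X' (Triv ℤ)) (kt : (Fin 1 → G) → IndMod X (Triv ℤ))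
    (t : (Fin 1 → G) → IndMod X' (Triv ℤ))
    (hJ : IndMod.sigmaSub (Triv ℤ) σ J =
      IndMod.pull (Triv ℤ) u (oneInv G X : IndMod X (Triv ℤ)) - m • b)
    (hb : IndMod.push (Triv ℤ) u b = (oneInv G X : IndMod X (Triv ℤ)))
    (hkt : kt ∈ Csm 𝓝 (IndMod X (Triv ℤ)) 1)
    (hktc : cmap (IndMod.mapCoeff X (Triv.map G (Int.castAddHom (ZMod m))) :
      IndMod X (Triv ℤ) →+ IndMod X (Triv (ZMod m))) 1 kt = c)
    (ht : ∀ g, m • t g = g 0 • J - J + IndMod.pull (Triv ℤ) u (kt g)) :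
    h.theta 𝓝 (Triv ℤ) 0 (Hsm.H0equiv.symm (oneInv G X)) =
      - bock 𝓝 X m (Hsm.mk 𝓝 _ 1 ⟨c, hz⟩) := by
  have hm : m ≠ 0 := NeZero.ne m
  -- `m • t = d J + pull kt`
  have ht' : m • t = dd (IndMod X' (Triv ℤ)) 0 (fun _ => J) +
      cmap (IndMod.pull (Triv ℤ) u : IndMod X (Triv ℤ) →+ IndMod X' (Triv ℤ)) 1 kt := by
    funext g
    rw [Pi.add_apply, dd_zero_apply]
    exact ht g
  -- `t` is smooth
  have htmem : t ∈ Csm 𝓝 (IndMod X' (Triv ℤ)) 1 := by
    refine mem_Csm_of_cmap_mem (φ := nsmulAddMonoidHom (α := IndMod X' (Triv ℤ)) m)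
      (fun f f' hff => thetaOne_ind_cancel hm hff) ?_
    have e : cmap (nsmulAddMonoidHom (α := IndMod X' (Triv ℤ)) m) 1 t = m • t := rfl
    rw [e, ht']
    exact add_mem (dd_mem_Csm (mem_Csm_zero _)) (cmap_mem_Csm _ hkt)
  -- `(σ^* - 1)(- t g) = g b - b`
  have hone : ∀ g : G, g • IndMod.pull (Triv ℤ) u (oneInv G X : IndMod X (Triv ℤ)) =
      IndMod.pull (Triv ℤ) u (oneInv G X : IndMod X (Triv ℤ)) := by
    intro g
    rw [← map_smul, (oneInv G X).2 g]
  have hσt : ∀ g : Fin 1 → G, IndMod.sigmaSub (Triv ℤ) σ (-(t g)) = g 0 • b - b := by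
    intro g
    apply thetaOne_ind_cancel hm
    rw [← map_nsmul, smul_neg, ht g, map_neg, map_add, map_sub, map_smul, hJ, h.sigmaSub_pull,
      smul_sub, hone, smul_comm (g 0) m b, smul_sub]
    abel
  -- the Bockstein cochain
  obtain ⟨a', ha'⟩ := (IndMod.shortExact_mapCoeff X (shortExact_mul_cast G m)).exists_cmap_eq
    (b := dd (IndMod X (Triv ℤ)) 1 kt) (by rw [← dd_cmap, hktc, dd_eq_zero_of_mem_Zsm hz])
  have ha'm : m • a' = dd (IndMod X (Triv ℤ)) 1 kt := by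
    rw [← ha']
    funext g
    ext x
    apply Triv.out.injective
    show Triv.out (m • a' g x) = (m : ℤ) * Triv.out (a' g x)
    rw [map_nsmul, nsmul_eq_mul]
  have hdt : dd (IndMod X' (Triv ℤ)) 1 t =
      cmap (IndMod.pull (Triv ℤ) u : IndMod X (Triv ℤ) →+ IndMod X' (Triv ℤ)) 2 a' := by
    apply thetaOne_coch_cancel hm
    rw [← map_nsmul, ht', map_add, dd_dd, zero_add, dd_cmap, ← ha'm, map_nsmul]
  -- the three connecting homomorphisms
  set w : (Fin 1 → G) → IndMod.WMod (Triv ℤ) σ :=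
    cmap (GSub.rangeRestrict (IndMod.sigmaSub (Triv ℤ) σ) :
      IndMod X' (Triv ℤ) →+ IndMod.WMod (Triv ℤ) σ) 1 (-t) with hw
  have R1 : DeltaRel 𝓝 (GSub.range (IndMod.sigmaSub (Triv ℤ) σ)).inclG (IndMod.push (Triv ℤ) u) 0
      ((Zsm.ofInv (𝓝 := 𝓝) (oneInv G X) : Zsm 𝓝 (IndMod X (Triv ℤ)) 0) :
        (Fin 0 → G) → IndMod X (Triv ℤ)) w := by
    refine ⟨fun _ => b, mem_Csm_zero _, funext fun _ => hb, funext fun g => ?_⟩
    rw [dd_zero_apply]
    exact hσt g
  have R2 : DeltaRel 𝓝 (IndMod.pull (Triv ℤ) u)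
      (GSub.rangeRestrict (IndMod.sigmaSub (Triv ℤ) σ)) 1 w (-a') :=
    ⟨-t, neg_mem htmem, rfl, by rw [map_neg, map_neg, hdt]⟩
  have R3 : DeltaRel 𝓝 (IndMod.mapCoeff X (Triv.map G (AddMonoidHom.mulLeft (m : ℤ))))
      (IndMod.mapCoeff X (Triv.map G (Int.castAddHom (ZMod m)))) 1 c a' :=
    ⟨kt, hkt, hktc, ha'⟩
  have hwZ := R1.mem_Zsm (h.shortExact_right (Triv ℤ))
  have ha1 := R2.mem_Zsm (h.shortExact_left (Triv ℤ))
  have ha2 := R3.mem_Zsm (IndMod.shortExact_mapCoeff X (shortExact_mul_cast G m))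
  rw [Hsm.H0equiv_symm_apply]
  show Hsm.delta (h.shortExact_left (A := Triv ℤ)) 1
    (Hsm.delta (h.shortExact_right (A := Triv ℤ)) 0 (Hsm.mk 𝓝 _ 0 (Zsm.ofInv (oneInv G X)))) = _
  rw [Hsm.delta_mk (h.shortExact_right (A := Triv ℤ)) _ ⟨w, hwZ⟩ R1,
    Hsm.delta_mk (h.shortExact_left (A := Triv ℤ)) ⟨w, hwZ⟩ ⟨-a', ha1⟩ R2]
  unfold bock
  rw [Hsm.delta_mk (IndMod.shortExact_mapCoeff X (shortExact_mul_cast G m)) ⟨c, hz⟩ ⟨a', ha2⟩ R3,
    ← map_neg]
  rfl

omit [NeZero m] [Finite X'] [MulAction G X] in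
private theorem thetaOne_iterate_smul (g : G) (k : ℕ) (z : X') :
    σ^[k] (g • z) = g • σ^[k] z := by
  induction k with
  | zero => rfl
  | succ k ih => rw [Function.iterate_succ_apply', ih, map_smul, ← Function.iterate_succ_apply' σ]

omit [NeZero m] [Finite X'] [Finite X] in
private theorem thetaOne_iterate_mod (h : CyclicCover u σ m) (n : ℕ) (z : X') :
    σ^[n % m] z = σ^[n] z := by
  conv_rhs => rw [← Nat.mod_add_div n m, Function.iterate_add_apply, Function.iterate_mul,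
    Function.iterate_fixed (h.pow z)]

theorem theta_one (h : CyclicCover u σ m) {c : (Fin 1 → G) → IndMod X (Triv (ZMod m))}
    (hc : IsCoverCocycle u σ m c) (hz : c ∈ Zsm 𝓝 (IndMod X (Triv (ZMod m))) 1) :
    h.theta 𝓝 (Triv ℤ) 0 (Hsm.H0equiv.symm (oneInv G X)) =
      - bock 𝓝 X m (Hsm.mk 𝓝 _ 1 ⟨c, hz⟩) := by
  classical
  obtain ⟨s, hs, hcs⟩ := hc
  have hex : ∀ y, ∃ k < m, σ^[k] (s (u y)) = y := fun y => h.trans _ _ (hs _)
  choose κ hκ hκ' using hex
  have huniq : ∀ y k, k < m → σ^[k] (s (u y)) = y → κ y = k := fun y k hk hky =>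
    h.iterate_inj (hκ y) hk ((hκ' y).trans hky.symm)
  refine thetaOne_aux h hz (IndMod.of fun y => Triv.mk (κ y : ℤ))
    (IndMod.of fun y => Triv.mk (if κ y + 1 = m then 1 else 0))
    (fun g => IndMod.of fun x => Triv.mk ((Triv.out (c g x)).val : ℤ))
    (fun g => IndMod.of fun y =>
      Triv.mk (((κ ((g 0)⁻¹ • y) + (Triv.out (c g (u y))).val) / m : ℕ) : ℤ)) ?_ ?_ ?_ ?_ ?_
  · -- `(σ^* - 1) J = 1 - m b`
    ext y
    apply Triv.out.injective
    show ((κ (σ y) : ℤ) - (κ y : ℤ)) = 1 - m • (if κ y + 1 = m then (1 : ℤ) else 0)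
    have hσy : σ^[κ y + 1] (s (u y)) = σ y := by rw [Function.iterate_succ_apply', hκ' y]
    rcases Nat.lt_or_ge (κ y + 1) m with hlt | hge
    · have h1 : κ (σ y) = κ y + 1 := huniq _ _ hlt (by rw [h.comm]; exact hσy)
      rw [h1, if_neg hlt.ne]
      push_cast
      ring
    · have hm' : κ y + 1 = m := le_antisymm (hκ y) hge
      have h1 : κ (σ y) = 0 := huniq _ _ h.pos (by
        rw [h.comm]
        show s (u y) = σ y
        rw [← hσy, hm', h.pow])
      rw [h1, if_pos hm', ← hm']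
      push_cast
      ring
  · -- the fibre sum of `b` is `1`
    ext x
    conv_lhs => rw [← hs x]
    rw [h.push_apply_map, Finset.sum_eq_single (m - 1)]
    · have h1 : κ (σ^[m - 1] (s x)) = m - 1 :=
        huniq _ _ (Nat.sub_lt h.pos Nat.one_pos) (by rw [h.map_iterate, hs])
      rw [IndMod.of_apply, h1, if_pos (Nat.sub_add_cancel h.pos)]
      rfl
    · intro k hk hk0
      have h1 : κ (σ^[k] (s x)) = k :=
        huniq _ _ (Finset.mem_range.1 hk) (by rw [h.map_iterate, hs])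
      rw [IndMod.of_apply, h1, if_neg (by omega)]
      rfl
    · intro h0
      exact absurd (Finset.mem_range.2 (Nat.sub_lt h.pos Nat.one_pos)) h0
  · -- smoothness of the lift
    exact IsLevel.comp hz.1 (fun f : IndMod X (Triv (ZMod m)) =>
      (IndMod.of fun x => Triv.mk ((Triv.out (f x)).val : ℤ) : IndMod X (Triv ℤ)))
  · -- it is a lift
    funext g
    ext x
    apply Triv.out.injective
    show ((((Triv.out (c g x)).val : ℕ) : ℤ) : ZMod m) = Triv.out (c g x)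
    rw [Int.cast_natCast, ZMod.natCast_zmod_val]
  · -- the division
    intro g
    ext y
    apply Triv.out.injective
    show m • (((κ ((g 0)⁻¹ • y) + (Triv.out (c g (u y))).val) / m : ℕ) : ℤ) =
      (κ ((g 0)⁻¹ • y) : ℤ) - (κ y : ℤ) + ((Triv.out (c g (u y))).val : ℤ)
    set k1 := κ ((g 0)⁻¹ • y) with hk1
    set k2 := (Triv.out (c g (u y))).val with hk2
    have e1 : σ^[k1 + k2] (s (u y)) = y := by
      have e2 := hκ' ((g 0)⁻¹ • y)
      rw [map_smul] at e2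
      rw [Function.iterate_add_apply, ← hcs g (u y), thetaOne_iterate_smul, e2, smul_inv_smul]
    have e3 : κ y = (k1 + k2) % m :=
      huniq _ _ (Nat.mod_lt _ h.pos) (by rw [thetaOne_iterate_mod h, e1])
    have e4 := Nat.div_add_mod (k1 + k2) m
    rw [e3, nsmul_eq_mul]
    have e5 : ((m * ((k1 + k2) / m) + (k1 + k2) % m : ℕ) : ℤ) = ((k1 + k2 : ℕ) : ℤ) := by rw [e4]
    push_cast at e5 ⊢
    linarith

end

end Fermat.Agent.S55.Sym
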