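/-
S55 / block SYM, section SYM-6 : `θ_σ(y) = - symb [c] y`; the right kernel of `symb [c] ·` is the
group of norms.
-/
import Fermat.Agent.S55.Sym.Defs
import Fermat.Agent.S55.Coh.Theta
import Fermat.Agent.S55.Sym.ThetaOne

set_option autoImplicit false

namespace Fermat.Agent.S55.Sym

open Fermat.Agent.S55

variable {G : Type} [Group G] {𝓝 : LevelSys G}

section S6

variable {X' X A : Type} [MulAction G X'] [MulAction G X] {u : X' →[G] X} {σ : X' →[G] X'} {m : ℕ}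
  [NeZero m] [Finite X'] [SmoothSet 𝓝 X'] [Finite X] [SmoothSet 𝓝 X]
  [AddCommGroup A] [DistribMulAction G A] [Smooth 𝓝 A]

omit [NeZero m] [Finite X'] [SmoothSet 𝓝 X'] [Finite X] [SmoothSet 𝓝 X] [Smooth 𝓝 A] in
/-- multiplication by the pull back of `y` commutes with `σ^* - 1` -/
private theorem mulBy_pull_sigmaSub (hcomm : ∀ x, u (σ x) = u x) (y : inv0 G (IndMod X A))
    (f : IndMod X' (Triv ℤ)) :
    mulBy (inv0.map (IndMod.pull A u) y) (IndMod.sigmaSub (Triv ℤ) σ f) =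
      IndMod.sigmaSub A σ (mulBy (inv0.map (IndMod.pull A u) y) f) := by
  ext x
  rw [mulBy_apply, IndMod.sigmaSub_apply, IndMod.sigmaSub_apply, mulBy_apply, mulBy_apply,
    inv0.coe_map, IndMod.pull_apply, IndMod.pull_apply, hcomm, map_sub, sub_smul]

/-- the map induced by multiplication by the pull back of `y` on `W = im(σ^* - 1)` -/
private def mulByW (hcomm : ∀ x, u (σ x) = u x) (y : inv0 G (IndMod X A)) :
    IndMod.WMod (Triv ℤ) σ →+[G] IndMod.WMod A σ :=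
  GSub.codRestrict (GSub.range (IndMod.sigmaSub A σ))
    ((mulBy (inv0.map (IndMod.pull A u) y)).comp (GSub.range (IndMod.sigmaSub (Triv ℤ) σ)).inclG)
    (by
      intro w
      obtain ⟨f, hf⟩ := (GSub.range (IndMod.sigmaSub (Triv ℤ) σ)).incl_mem w
      exact ⟨mulBy (inv0.map (IndMod.pull A u) y) f,
        (mulBy_pull_sigmaSub hcomm y f).symm.trans
          (congrArg (mulBy (inv0.map (IndMod.pull A u) y)) hf)⟩)

omit [Finite X] [SmoothSet 𝓝 X] [Smooth 𝓝 A] in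
private theorem mulBy_oneInv' (y : inv0 G (IndMod X A)) :
    mulBy y (oneInv G X : IndMod X (Triv ℤ)) = (y : IndMod X A) := by
  ext x
  rw [mulBy_apply]
  show (1 : ℤ) • (y : IndMod X A) x = _
  rw [one_smul]

theorem theta_eq_map_mulBy (h : CyclicCover u σ m) (y : inv0 G (IndMod X A)) :
    h.theta 𝓝 A 0 (Hsm.H0equiv.symm y) =
      Hsm.map (mulBy y) 2 (h.theta 𝓝 (Triv ℤ) 0 (Hsm.H0equiv.symm (oneInv G X))) := by
  have key := FourTerm.theta_naturality (𝓝 := 𝓝) (h.fourTerm (Triv ℤ)) (h.fourTerm A) (mulBy y)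
    (mulBy (inv0.map (IndMod.pull A u) y)) (mulByW h.comm y) ?_ ?_ ?_ ?_ 0
    (Hsm.H0equiv.symm (oneInv G X))
  · rw [Hsm.map_H0equiv_symm] at key
    have h1 : inv0.map (mulBy y) (oneInv G X) = y := Subtype.ext (mulBy_oneInv' y)
    rw [h1] at key
    exact key
  · intro a
    ext x
    rfl
  · intro b
    apply (GSub.range (IndMod.sigmaSub A σ)).incl_injective
    rw [GSub.incl_rangeRestrict, ← mulBy_pull_sigmaSub h.comm]
    rfl
  · intro c
    rfl
  · intro b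
    ext x
    obtain ⟨x', rfl⟩ := h.surj x
    have hit : ∀ k : ℕ, u (σ^[k] x') = u x' := by
      intro k
      induction k with
      | zero => rfl
      | succ k ih => rw [Function.iterate_succ_apply', h.comm, ih]
    rw [mulBy_apply, h.push_apply_map, h.push_apply_map, map_sum, Finset.sum_smul]
    refine Finset.sum_congr rfl fun k _ => ?_
    rw [mulBy_apply, inv0.coe_map, IndMod.pull_apply, hit]

theorem theta_eq_neg_symb (h : CyclicCover u σ m) {c : (Fin 1 → G) → IndMod X (Triv (ZMod m))}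
    (hc : IsCoverCocycle u σ m c) (hz : c ∈ Zsm 𝓝 (IndMod X (Triv (ZMod m))) 1)
    (y : inv0 G (IndMod X A)) :
    h.theta 𝓝 A 0 (Hsm.H0equiv.symm y) = - symb 𝓝 (Hsm.mk 𝓝 _ 1 ⟨c, hz⟩) y := by
  rw [theta_eq_map_mulBy h y, theta_one h hc hz, map_neg]
  rfl

/-- if `H^1(Map(X', A)) = 0` the right kernel of `symb [c] ·` is the group of norms -/
theorem symb_eq_zero_iff (h : CyclicCover u σ m) {c : (Fin 1 → G) → IndMod X (Triv (ZMod m))}
    (hc : IsCoverCocycle u σ m c) (hz : c ∈ Zsm 𝓝 (IndMod X (Triv (ZMod m))) 1)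
    (hvan : ∀ z : Hsm 𝓝 (IndMod X' A) 1, z = 0) (y : inv0 G (IndMod X A)) :
    symb 𝓝 (Hsm.mk 𝓝 _ 1 ⟨c, hz⟩) y = 0 ↔
      ∃ y' : inv0 G (IndMod X' A), inv0.map (IndMod.push A u) y' = y := by
  rw [← neg_eq_zero, ← theta_eq_neg_symb h hc hz y,
    CyclicCover.theta_eq_zero_iff 𝓝 A h 0 hvan]
  constructor
  · rintro ⟨z, hz'⟩
    refine ⟨Hsm.H0equiv z, ?_⟩
    rw [← Hsm.H0equiv_map, hz', AddEquiv.apply_symm_apply]
  · rintro ⟨y', rfl⟩
    exact ⟨Hsm.H0equiv.symm y', Hsm.map_H0equiv_symm _ _⟩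

end S6

end Fermat.Agent.S55.Sym
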