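/-
S55 / block SYM, section SYM-4 : the `ℤ/m`-valued cocycle of a cyclic cover: existence, it is a
smooth cocycle, its class dies on the cover, and vanishes if the cover has an equivariant section.
-/
import Fermat.Agent.S55.Sym.Defs
import Fermat.Agent.S55.Coh.Cyclic

set_option autoImplicit false

namespace Fermat.Agent.S55.Sym

open Fermat.Agent.S55

variable {G : Type} [Group G] {𝓝 : LevelSys G}

section S4

variable {X' X : Type} [MulAction G X'] [MulAction G X] {u : X' →[G] X} {σ : X' →[G] X'} {m : ℕ}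

private theorem iterate_mod (h : CyclicCover u σ m) (a : ℕ) (y : X') :
    σ^[a] y = σ^[a % m] y := by
  have hid : (σ : X' → X')^[m] = id := funext h.pow
  conv_lhs => rw [← Nat.mod_add_div a m, Function.iterate_add_apply, Function.iterate_mul, hid,
    Function.iterate_id]
  rfl

private theorem iterate_eq_iff (h : CyclicCover u σ m) (a b : ℕ) (y : X') :
    σ^[a] y = σ^[b] y ↔ (a : ZMod m) = b := by
  rw [iterate_mod h a, iterate_mod h b, ZMod.natCast_eq_natCast_iff']
  constructor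
  · intro hab
    exact h.iterate_inj (Nat.mod_lt _ h.pos) (Nat.mod_lt _ h.pos) hab
  · intro hab
    rw [hab]

private theorem iterate_smul (σ : X' →[G] X') (k : ℕ) (g : G) (y : X') :
    σ^[k] (g • y) = g • σ^[k] y := by
  induction k with
  | zero => rfl
  | succ k ih => rw [Function.iterate_succ_apply', Function.iterate_succ_apply', ih, map_smul]

private theorem dd_one_apply {A : Type} [AddCommGroup A] [DistribMulAction G A]
    (f : (Fin 1 → G) → A) (g : Fin 2 → G) :
    dd A 1 f g = g 0 • f (fun _ => g 1) - f (fun _ => g 0 * g 1) + f (fun _ => g 0) := by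
  have e0 : (fun i : Fin 1 => g i.succ) = fun _ => g 1 := by
    funext i; fin_cases i; rfl
  have e1 : Fin.contractNth (0 : Fin 2) (· * ·) g = fun _ => g 0 * g 1 := by
    funext i; fin_cases i; simp [Fin.contractNth]
  have e2 : Fin.contractNth (1 : Fin 2) (· * ·) g = fun _ => g 0 := by
    funext i; fin_cases i; simp [Fin.contractNth]
  rw [dd_apply, Fin.sum_univ_two, e0, e1, e2]
  simp
  abel

theorem exists_isCoverCocycle (h : CyclicCover u σ m) : ∃ c, IsCoverCocycle u σ m c := by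
  have : NeZero m := ⟨h.pos.ne'⟩
  let s : X → X' := Function.surjInv h.surj
  have hs : ∀ x, u (s x) = x := Function.surjInv_eq h.surj
  have hex : ∀ (g : Fin 1 → G) (x : X), ∃ k < m, σ^[k] (s x) = g 0 • s ((g 0)⁻¹ • x) := by
    intro g x
    apply h.trans
    rw [map_smul, hs, hs, smul_inv_smul]
  choose k hk hk' using hex
  refine ⟨fun g => IndMod.of fun x => Triv.mk (k g x : ZMod m), s, hs, fun g x => ?_⟩
  rw [IndMod.of_apply, Triv.out_mk, ZMod.val_natCast_of_lt (hk g x), hk']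

theorem IsCoverCocycle.mem_Zsm (h : CyclicCover u σ m) [Finite X'] [SmoothSet 𝓝 X']
    {c : (Fin 1 → G) → IndMod X (Triv (ZMod m))} (hc : IsCoverCocycle u σ m c) :
    c ∈ Zsm 𝓝 (IndMod X (Triv (ZMod m))) 1 := by
  have : NeZero m := ⟨h.pos.ne'⟩
  obtain ⟨s, hs, hcs⟩ := hc
  rw [Fermat.Agent.S55.mem_Zsm]
  constructor
  · obtain ⟨N, hN, hfix⟩ := SmoothSet.exists_fix_all 𝓝 X'
    have hfixX : ∀ n ∈ N, ∀ x : X, n • x = x := by
      intro n hn x
      obtain ⟨x', rfl⟩ := h.surj x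
      rw [← map_smul, hfix n hn]
    refine ⟨N, hN, fun g k hgk => ?_⟩
    ext x
    apply Triv.out.injective
    apply ZMod.val_injective
    apply h.iterate_inj (ZMod.val_lt _) (ZMod.val_lt _) (x := s x)
    rw [← hcs g x, ← hcs k x]
    obtain ⟨n, hn, hk0⟩ : ∃ n ∈ N, k 0 = g 0 * n :=
      ⟨(g 0)⁻¹ * k 0, hgk 0, by rw [mul_inv_cancel_left]⟩
    rw [hk0, mul_inv_rev, mul_smul, mul_smul, hfixX _ (N.inv_mem hn), hfix n hn]
  · funext g
    ext x
    rw [dd_one_apply]
    simp only [IndMod.add_apply, IndMod.sub_apply, IndMod.smul_apply, Triv.smul_def,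
      Pi.zero_apply, IndMod.zero_apply]
    have key : Triv.out (c (fun _ => g 0 * g 1) x) =
        Triv.out (c (fun _ => g 1) ((g 0)⁻¹ • x)) + Triv.out (c (fun _ => g 0) x) := by
      have h1 := hcs (fun _ => g 0 * g 1) x
      have h2 := hcs (fun _ => g 1) ((g 0)⁻¹ • x)
      have h3 := hcs (fun _ => g 0) x
      rw [mul_inv_rev, mul_smul, mul_smul, h2, ← iterate_smul, h3,
        ← Function.iterate_add_apply] at h1
      have h4 := (iterate_eq_iff h _ _ _).1 h1
      rw [Nat.cast_add, ZMod.natCast_zmod_val, ZMod.natCast_zmod_val, ZMod.natCast_zmod_val] at h4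
      exact h4.symm
    apply Triv.out.injective
    rw [map_add, map_sub, key, map_zero]
    abel

/-- the class of the cover dies on the cover -/
theorem IsCoverCocycle.pull_eq_zero (h : CyclicCover u σ m) [Finite X'] [SmoothSet 𝓝 X']
    {c : (Fin 1 → G) → IndMod X (Triv (ZMod m))} (hc : IsCoverCocycle u σ m c)
    (hz : c ∈ Zsm 𝓝 (IndMod X (Triv (ZMod m))) 1) :
    Hsm.map (IndMod.pull (Triv (ZMod m)) u) 1 (Hsm.mk 𝓝 _ 1 ⟨c, hz⟩) = 0 := by
  have : NeZero m := ⟨h.pos.ne'⟩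
  obtain ⟨s, hs, hcs⟩ := hc
  have hex : ∀ x' : X', ∃ j < m, σ^[j] (s (u x')) = x' := fun x' => h.trans _ _ (hs (u x'))
  choose j hj hj' using hex
  rw [Hsm.map_mk, Hsm.mk_eq_zero_iff, mem_Bsm_succ]
  refine ⟨fun _ => -(IndMod.of fun x' => Triv.mk (j x' : ZMod m)), mem_Csm_zero _, ?_⟩
  funext g
  ext x'
  rw [dd_zero_apply]
  simp only [Zsm.coe_map, cmap_apply, IndMod.sub_apply, IndMod.smul_apply, IndMod.neg_apply,
    IndMod.of_apply, Triv.smul_def]
  show -Triv.mk (j ((g 0)⁻¹ • x') : ZMod m) - -Triv.mk (j x' : ZMod m) = c g (u x')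
  have h1 := hj' ((g 0)⁻¹ • x')
  have h2 : σ^[j ((g 0)⁻¹ • x')] (g 0 • s ((g 0)⁻¹ • u x')) = x' := by
    rw [iterate_smul, ← map_smul u, h1, smul_inv_smul]
  rw [hcs g (u x'), ← Function.iterate_add_apply] at h2
  have h3 := (iterate_eq_iff h _ _ _).1 (h2.trans (hj' x').symm)
  rw [Nat.cast_add, ZMod.natCast_zmod_val] at h3
  apply Triv.out.injective
  rw [map_sub, map_neg, map_neg, Triv.out_mk, Triv.out_mk, ← h3]
  abel

/-- an equivariant section kills the class -/
theorem IsCoverCocycle.eq_zero_of_section (h : CyclicCover u σ m) [Finite X'] [SmoothSet 𝓝 X']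
    {c : (Fin 1 → G) → IndMod X (Triv (ZMod m))} (hc : IsCoverCocycle u σ m c)
    (hz : c ∈ Zsm 𝓝 (IndMod X (Triv (ZMod m))) 1) (t : X →[G] X') (ht : ∀ x, u (t x) = x) :
    Hsm.mk 𝓝 _ 1 ⟨c, hz⟩ = 0 := by
  have h1 : Hsm.map (IndMod.pull (Triv (ZMod m)) t) 1
      (Hsm.map (IndMod.pull (Triv (ZMod m)) u) 1 (Hsm.mk 𝓝 _ 1 ⟨c, hz⟩)) =
      Hsm.mk 𝓝 _ 1 ⟨c, hz⟩ := by
    rw [← Hsm.map_comp' (χ := DistribMulActionHom.id G), Hsm.map_id]
    intro a
    ext x
    simp [ht]
  rw [← h1, hc.pull_eq_zero h hz, map_zero]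

end S4

end Fermat.Agent.S55.Sym
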