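/-
S55 / block SYM, section SYM-2: naturality of the Bockstein map and of the symbol in `X` and `A`,
projection formula.
-/
import Fermat.Agent.S55.Sym.Defs

set_option autoImplicit false

namespace Fermat.Agent.S55.Sym

open Fermat.Agent.S55 Fermat.Agent.S55.Sym

variable {G : Type} [Group G] {𝓝 : LevelSys G}

section S2

variable {X X₁ A B : Type} [MulAction G X] [Finite X] [SmoothSet 𝓝 X] [MulAction G X₁] [Finite X₁]
  [SmoothSet 𝓝 X₁] [AddCommGroup A] [DistribMulAction G A] [AddCommGroup B] [DistribMulAction G B]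
  {m : ℕ} [NeZero m]

theorem bock_pull (v : X₁ →[G] X) (χ : Hsm 𝓝 (IndMod X (Triv (ZMod m))) 1) :
    bock 𝓝 X₁ m (Hsm.map (IndMod.pull (Triv (ZMod m)) v) 1 χ) =
      Hsm.map (IndMod.pull (Triv ℤ) v) 2 (bock 𝓝 X m χ) :=
  Hsm.delta_naturality (IndMod.shortExact_mapCoeff X (shortExact_mul_cast G m))
    (IndMod.shortExact_mapCoeff X₁ (shortExact_mul_cast G m)) (IndMod.pull (Triv ℤ) v)
    (IndMod.pull (Triv ℤ) v) (IndMod.pull (Triv (ZMod m)) v) (fun _ => rfl) (fun _ => rfl) 1 χ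

theorem pull_symb (v : X₁ →[G] X) (χ : Hsm 𝓝 (IndMod X (Triv (ZMod m))) 1)
    (y : inv0 G (IndMod X A)) :
    Hsm.map (IndMod.pull A v) 2 (symb 𝓝 χ y) =
      symb 𝓝 (Hsm.map (IndMod.pull (Triv (ZMod m)) v) 1 χ) (inv0.map (IndMod.pull A v) y) := by
  unfold symb
  rw [bock_pull, ← Hsm.map_comp, ← Hsm.map_comp]
  exact DFunLike.congr_fun (Hsm.map_congr (fun _ => rfl) 2) _

omit [Finite X] in
/-- the module identity behind the projection formula -/
theorem mulBy_push (v : X₁ →[G] X) (y₁ : inv0 G (IndMod X₁ A)) (f : IndMod X (Triv ℤ)) :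
    mulBy (inv0.map (IndMod.push A v) y₁) f =
      IndMod.push A v (mulBy y₁ (IndMod.pull (Triv ℤ) v f)) := by
  ext x
  rw [mulBy_apply, inv0.coe_map, IndMod.push_apply, IndMod.push_apply,
    smul_finsum' _ (Set.toFinite _)]
  refine finsum_congr fun z => ?_
  rw [mulBy_apply, IndMod.pull_apply, z.2]

/-- projection formula -/
theorem symb_push (v : X₁ →[G] X) (χ : Hsm 𝓝 (IndMod X (Triv (ZMod m))) 1)
    (y₁ : inv0 G (IndMod X₁ A)) :
    symb 𝓝 χ (inv0.map (IndMod.push A v) y₁) =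
      Hsm.map (IndMod.push A v) 2
        (symb 𝓝 (Hsm.map (IndMod.pull (Triv (ZMod m)) v) 1 χ) y₁) := by
  unfold symb
  rw [bock_pull, ← Hsm.map_comp, ← Hsm.map_comp]
  exact DFunLike.congr_fun (Hsm.map_congr (fun f => mulBy_push v y₁ f) 2) _

/-- norms from a cover killing `χ` are orthogonal to `χ` -/
theorem symb_push_eq_zero (v : X₁ →[G] X) (χ : Hsm 𝓝 (IndMod X (Triv (ZMod m))) 1)
    (hχ : Hsm.map (IndMod.pull (Triv (ZMod m)) v) 1 χ = 0) (y₁ : inv0 G (IndMod X₁ A)) :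
    symb 𝓝 χ (inv0.map (IndMod.push A v) y₁) = 0 := by
  rw [symb_push, hχ]
  unfold symb
  rw [map_zero, map_zero, map_zero]

theorem mapCoeff_symb (φ : A →+[G] B) (χ : Hsm 𝓝 (IndMod X (Triv (ZMod m))) 1)
    (y : inv0 G (IndMod X A)) :
    Hsm.map (IndMod.mapCoeff X φ) 2 (symb 𝓝 χ y) =
      symb 𝓝 χ (inv0.map (IndMod.mapCoeff X φ) y) := by
  unfold symb
  rw [← Hsm.map_comp]
  refine DFunLike.congr_fun (Hsm.map_congr (fun f => ?_) 2) _
  ext x
  show φ (Triv.out (f x) • (y : IndMod X A) x) = Triv.out (f x) • φ ((y : IndMod X A) x)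
  exact map_zsmul φ _ _

end S2

end Fermat.Agent.S55.Sym
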