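/-
S55 / block SYM, section SYM-8 (owner helper229): the part of a cyclic cover over an orbit,
the dichotomy "transitive or section", gluing of sections.
-/
import Fermat.Agent.S55.Sym.Defs
import Fermat.Agent.S55.Coh.Cyclic
import Fermat.Agent.S55.Coh.IndApi
import Fermat.Agent.S55.Coh.IndProd

set_option autoImplicit false

namespace Fermat.Agent.S55.Sym

open Fermat.Agent.S55 Fermat.Agent.S55.Sym

variable {G : Type} [Group G] {𝓝 : LevelSys G}

section S8

variable {Y' Y : Type} [MulAction G Y'] [MulAction G Y] {u : Y' →[G] Y} {σ : Y' →[G] Y'} {m : ℕ}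

instance smoothSet_orbit [SmoothSet 𝓝 Y] (ω : MulAction.orbitRel.Quotient G Y) :
    SmoothSet 𝓝 ω.orbit where
  exists_fix x := by
    obtain ⟨N, hN, h⟩ := SmoothSet.exists_fix (𝓝 := 𝓝) (x : Y)
    exact ⟨N, hN, fun n hn => Subtype.ext (h n hn)⟩

instance smoothSet_preOrb [SmoothSet 𝓝 Y'] (ω : MulAction.orbitRel.Quotient G Y) :
    SmoothSet 𝓝 (PreOrb u ω) where
  exists_fix x := by
    obtain ⟨N, hN, h⟩ := SmoothSet.exists_fix (𝓝 := 𝓝) (x.1 : Y')
    exact ⟨N, hN, fun n hn => Subtype.ext (h n hn)⟩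

instance isPretransitive_orbit (ω : MulAction.orbitRel.Quotient G Y) :
    MulAction.IsPretransitive G ω.orbit := inferInstance

theorem deck_iterate_val (ω : MulAction.orbitRel.Quotient G Y) (hσ : ∀ y, u (σ y) = u y) (k : ℕ)
    (y : PreOrb u ω) : ((PreOrb.deck u ω σ hσ)^[k] y).1 = σ^[k] y.1 := by
  induction k with
  | zero => rfl
  | succ k ih =>
    rw [Function.iterate_succ_apply', Function.iterate_succ_apply', ← ih]
    rfl

theorem cyclicCover_preOrb (h : CyclicCover u σ m) (ω : MulAction.orbitRel.Quotient G Y) :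
    CyclicCover (PreOrb.proj u ω) (PreOrb.deck u ω σ h.comm) m where
  pos := h.pos
  surj := by
    rintro ⟨y, hy⟩
    obtain ⟨y', rfl⟩ := h.surj y
    exact ⟨⟨y', hy⟩, rfl⟩
  comm x := Subtype.ext (h.comm x.1)
  pow x := Subtype.ext (by rw [deck_iterate_val, h.pow])
  trans x y hxy := by
    obtain ⟨k, hk, hky⟩ := h.trans x.1 y.1 (congrArg Subtype.val hxy)
    exact ⟨k, hk, Subtype.ext (by rw [deck_iterate_val, hky])⟩
  free x k hk hkm hx := h.free x.1 k hk hkm (by rw [← deck_iterate_val ω h.comm, hx])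

theorem IsCoverCocycle.preOrb (h : CyclicCover u σ m)
    {c : (Fin 1 → G) → IndMod Y (Triv (ZMod m))} (hc : IsCoverCocycle u σ m c)
    (ω : MulAction.orbitRel.Quotient G Y) :
    IsCoverCocycle (PreOrb.proj u ω) (PreOrb.deck u ω σ h.comm) m
      (cmap (IndMod.pull (Triv (ZMod m)) (orbitIncl ω) :
        IndMod Y (Triv (ZMod m)) →+ IndMod ω.orbit (Triv (ZMod m))) 1 c) := by
  obtain ⟨s, hs, hsc⟩ := hc
  refine ⟨fun x => (⟨s x.1, by rw [hs]; exact x.2⟩ : PreOrb u ω), fun x => Subtype.ext (hs x.1),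
    fun g x => ?_⟩
  apply Subtype.ext
  exact (hsc g x.1).trans (deck_iterate_val ω h.comm (Triv.out (c g x.1)).val
    (⟨s x.1, by rw [hs]; exact x.2⟩ : PreOrb u ω)).symm

theorem iterate_smul (σ : Y' →[G] Y') (n : ℕ) (g : G) (x : Y') :
    σ^[n] (g • x) = g • σ^[n] x := by
  induction n with
  | zero => rfl
  | succ n ih => rw [Function.iterate_succ_apply', Function.iterate_succ_apply', ih, map_smul]

theorem iterate_mul_self (h : CyclicCover u σ m) (q : ℕ) (x : Y') : σ^[m * q] x = x := by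
  induction q with
  | zero => rfl
  | succ q ih => rw [Nat.mul_succ, Function.iterate_add_apply, h.pow, ih]

theorem iterate_mod (h : CyclicCover u σ m) (n : ℕ) (x : Y') : σ^[n % m] x = σ^[n] x := by
  conv_rhs => rw [← Nat.mod_add_div n m, Function.iterate_add_apply, iterate_mul_self h]

theorem pow_smul_eq_iterate {g : G} {x : Y'} {k : ℕ} (hg : g • x = σ^[k] x) (j : ℕ) :
    g ^ j • x = σ^[k * j] x := by
  induction j with
  | zero => simp
  | succ j ih =>
    rw [pow_succ, mul_smul, hg, ← iterate_smul, ih, ← Function.iterate_add_apply, Nat.mul_succ,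
      Nat.add_comm]

/-- a cyclic cover of prime degree of a transitive set is transitive or has a section -/
theorem transitive_or_section {p : ℕ} (hp : p.Prime) (h : CyclicCover u σ p)
    [MulAction.IsPretransitive G Y] :
    MulAction.IsPretransitive G Y' ∨ ∃ t : Y →[G] Y', ∀ y, u (t y) = y := by
  classical
  by_cases hne : Nonempty Y'
  swap
  · exact Or.inl ⟨fun x => absurd ⟨x⟩ hne⟩
  obtain ⟨y0'⟩ := hne
  by_cases hcase : ∀ g : G, g • u y0' = u y0' → g • y0' = y0'
  · -- the stabiliser of `y0` fixes `y0'` : a section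
    right
    choose γ hγ using fun y : Y => MulAction.exists_smul_eq G (u y0') y
    refine ⟨{ toFun := fun y => γ y • y0', map_smul' := fun a y => ?_ }, fun y => ?_⟩
    · have h1 : ((a * γ y)⁻¹ * γ (a • y)) • u y0' = u y0' := by
        rw [mul_smul, hγ, inv_smul_eq_iff, mul_smul, hγ]
      have h2 := hcase _ h1
      rw [mul_smul, inv_smul_eq_iff, mul_smul] at h2
      exact h2
    · show u (γ y • y0') = y
      rw [map_smul, hγ]
  · -- some element of the stabiliser moves `y0'` : transitivity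
    left
    rw [not_forall] at hcase
    obtain ⟨g, hg⟩ := hcase
    rw [Classical.not_imp] at hg
    obtain ⟨hg0, hg1⟩ := hg
    obtain ⟨k, hk, hgk⟩ := h.trans y0' (g • y0') (by rw [map_smul, hg0])
    have hk0 : k ≠ 0 := by
      rintro rfl
      exact hg1 hgk.symm
    have hcop : Nat.Coprime k p :=
      (Nat.coprime_comm.1 ((Nat.Prime.coprime_iff_not_dvd hp).2
        (fun hd => absurd (Nat.le_of_dvd (Nat.pos_of_ne_zero hk0) hd) (not_le.2 hk))))
    -- every point of the fibre of `y0` is in the orbit of `y0'`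
    have hfib : ∀ j : ℕ, ∃ a : G, a • y0' = σ^[j] y0' := by
      intro j
      obtain ⟨i, -, hi⟩ := Nat.exists_mul_mod_eq_one_of_coprime hcop hp.one_lt
      refine ⟨g ^ (i * j), ?_⟩
      rw [pow_smul_eq_iterate hgk.symm, ← iterate_mod h, ← iterate_mod h j, ← mul_assoc,
        Nat.mul_mod, hi, one_mul, Nat.mod_mod]
    have hall : ∀ y' : Y', ∃ a : G, a • y0' = y' := by
      intro y'
      obtain ⟨g1, hg1⟩ := MulAction.exists_smul_eq G (u y0') (u y')
      obtain ⟨j, -, hj⟩ := h.trans y0' (g1⁻¹ • y') (by rw [map_smul, ← hg1, inv_smul_smul])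
      obtain ⟨a, ha⟩ := hfib j
      exact ⟨g1 * a, by rw [mul_smul, ha, hj, smul_inv_smul]⟩
    refine ⟨fun x y => ?_⟩
    obtain ⟨a, rfl⟩ := hall x
    obtain ⟨b, rfl⟩ := hall y
    exact ⟨b * a⁻¹, by rw [mul_smul, inv_smul_smul]⟩

/-- the orbit of a point, as an element of the orbit space -/
def orbCls (y : Y) : MulAction.orbitRel.Quotient G Y := Quotient.mk'' y

theorem mem_orbCls (y : Y) : y ∈ (orbCls (G := G) y).orbit :=
  MulAction.orbitRel.Quotient.mem_orbit.2 rfl

/-- sections over all orbits glue -/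
theorem exists_section_of_orbits
    (hs : ∀ ω : MulAction.orbitRel.Quotient G Y,
      ∃ t : ω.orbit →[G] PreOrb u ω, ∀ y, PreOrb.proj u ω (t y) = y) :
    ∃ t : Y →[G] Y', ∀ y, u (t y) = y := by
  choose t ht using hs
  -- the value does not depend on the way the orbit is written
  have hind : ∀ (ω ω' : MulAction.orbitRel.Quotient G Y) (_ : ω = ω') (y : Y) (hy : y ∈ ω.orbit)
      (hy' : y ∈ ω'.orbit), (t ω ⟨y, hy⟩).1 = (t ω' ⟨y, hy'⟩).1 := by
    rintro ω _ rfl y hy hy'
    rfl
  refine ⟨{ toFun := fun y => (t (orbCls y) ⟨y, mem_orbCls y⟩).1, map_smul' := fun g y => ?_ },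
    fun y => ?_⟩
  · have hω : orbCls (G := G) (g • y) = orbCls y := Quotient.sound' (MulAction.mem_orbit y g)
    have hy' : g • y ∈ (orbCls (G := G) y).orbit := PreOrb.smul_mem_orbit _ g (mem_orbCls y)
    show (t (orbCls (g • y)) ⟨g • y, mem_orbCls (g • y)⟩).1 = g • (t (orbCls y) ⟨y, mem_orbCls y⟩).1
    rw [hind _ _ hω (g • y) (mem_orbCls (g • y)) hy']
    have h1 : (⟨g • y, hy'⟩ : (orbCls (G := G) y).orbit) = g • ⟨y, mem_orbCls y⟩ := rfl
    rw [h1, map_smul]
    rfl
  · exact congrArg Subtype.val (ht (orbCls y) ⟨y, mem_orbCls y⟩)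

/-- the square `PreOrb → Y'`, `orbit → Y` : push along the inclusions commutes with push along the
covers -/
theorem push_incl_push {A : Type} [AddCommGroup A] [DistribMulAction G A] [Finite Y'] [Finite Y]
    (ω : MulAction.orbitRel.Quotient G Y) (F : IndMod (PreOrb u ω) A) :
    IndMod.push A u (IndMod.push A (PreOrb.incl u ω) F) =
      IndMod.push A (orbitIncl ω) (IndMod.push A (PreOrb.proj u ω) F) := by
  rw [← IndMod.push_comp, ← IndMod.push_comp]
  rfl

end S8

end Fermat.Agent.S55.Sym
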