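/-
S55 / EXIST-K-7 (helper157) : covers and change of group.
`cyclicCover_resMap`, `isCoverCocycle_resMap`, `locHTriv_mk`.
-/
import Fermat.Agent.S55.Sym.Defs

set_option autoImplicit false

namespace Fermat.Agent.S55.Sym

variable {G H : Type} [Group G] [Group H] (f : H →* G)
variable {X' X : Type} [MulAction G X'] [MulAction G X] {u : X' →[G] X} {σ : X' →[G] X'} {m : ℕ}

/-- iterates of `resMap f σ` -/
theorem val_iterate_resMap (σ : X' →[G] X') (k : ℕ) (x : ResSet f X') :
    ((resMap f σ)^[k] x).val = σ^[k] x.val := by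
  induction k generalizing x with
  | zero => rfl
  | succ k ih => rw [Function.iterate_succ_apply, Function.iterate_succ_apply, ih, resMap_val]

theorem cyclicCover_resMap (h : CyclicCover u σ m) :
    CyclicCover (resMap f u) (resMap f σ) m where
  pos := h.pos
  surj x := by
    obtain ⟨y, hy⟩ := h.surj x.val
    exact ⟨ResSet.of y, ResSet.ext hy⟩
  comm x := ResSet.ext (h.comm x.val)
  pow x := ResSet.ext (by rw [val_iterate_resMap, h.pow])
  trans x y hxy := by
    obtain ⟨k, hk, hkx⟩ := h.trans x.val y.val (congrArg ResSet.val hxy)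
    exact ⟨k, hk, ResSet.ext (by rw [val_iterate_resMap, hkx])⟩
  free x k hk hkm hx := h.free x.val k hk hkm (by rw [← val_iterate_resMap, hx])

theorem isCoverCocycle_resMap {c : (Fin 1 → G) → IndMod X (Triv (ZMod m))}
    (hc : IsCoverCocycle u σ m c) :
    IsCoverCocycle (resMap f u) (resMap f σ) m (pcmap f (toLocTriv f X (ZMod m)) 1 c) := by
  obtain ⟨s, hs, hc⟩ := hc
  refine ⟨fun x => ResSet.of (s x.val), fun x => ResSet.ext (hs x.val), fun g x => ?_⟩
  apply ResSet.ext
  rw [val_iterate_resMap, ResSet.val_smul, ResSet.val_of, ResSet.val_of, ResSet.val_smul, map_inv]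
  exact hc (fun i => f (g i)) x.val

theorem locHTriv_mk {𝓝H : LevelSys H} {𝓝G : LevelSys G} (hf : (𝓝G.comap f).Le 𝓝H) (M : Type)
    [AddCommGroup M] (n : ℕ) (z : Zsm 𝓝G (IndMod X (Triv M)) n)
    (hz : pcmap f (toLocTriv f X M) n z.1 ∈ Zsm 𝓝H (IndMod (ResSet f X) (Triv M)) n) :
    locHTriv X hf M n (Hsm.mk 𝓝G _ n z) = Hsm.mk 𝓝H _ n ⟨_, hz⟩ := rfl

end Fermat.Agent.S55.Sym
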